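import Fermat.Agent.VoronoiSummation.Bounds
import Mathlib.Analysis.SpecialFunctions.Integrals.Basic
import Mathlib.Analysis.SpecialFunctions.Trigonometric.Bounds

/-!
# Wilton's estimate

Integrate `f(α + u + i y)`, `y = 1 / M`, against `∑_{n ≤ M} e^(2π n y) e(-n u)`, whose `L¹` norm is
`≪ log M`.
-/

set_option autoImplicit false

noncomputable section

namespace FA.VoronoiSummation

open UpperHalfPlane hiding I
open Complex CongruenceSubgroup MeasureTheory Filter
open scoped MatrixGroups Real Topology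

/-- The kernel `∑_{n ≤ M} e^(2π n y) e(-n u)`. -/
def dirichletKernel (M : ℕ) (y u : ℝ) : ℂ :=
  ∑ n ∈ Finset.range (M + 1), cexp (2 * π * (y - u * I)) ^ n

theorem continuous_dirichletKernel (M : ℕ) (y : ℝ) : Continuous (dirichletKernel M y) := by
  unfold dirichletKernel
  fun_prop

theorem norm_exp_sub_one_ge {y u : ℝ} (hy : 0 ≤ y) (hu : |u| ≤ 1 / 2) :
    (y + |u|) / 2 ≤ ‖cexp (2 * π * (y - u * I)) - 1‖ := by
  set r := Real.exp (2 * π * y) with hr
  have hπ := Real.pi_gt_three
  have hre : (2 * π * ((y : ℂ) - u * I)).re = 2 * π * y := by simp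
  have h1 : r - 1 ≤ ‖cexp (2 * π * (y - u * I)) - 1‖ := by
    have h := norm_sub_norm_le (cexp (2 * π * (y - u * I))) (1 : ℂ)
    rwa [Complex.norm_exp, hre, norm_one, ← hr] at h
  have h2 : y ≤ r - 1 := by
    have := Real.add_one_le_exp (2 * π * y)
    nlinarith
  have h3 : |u| ≤ ‖cexp (2 * π * (y - u * I)) - 1‖ := by
    by_cases hu4 : |u| ≤ 1 / 4
    · refine le_trans ?_ (abs_im_le_norm _)
      have him : (cexp (2 * π * (y - u * I)) - 1).im = r * -Real.sin (2 * π * u) := by
        rw [sub_im, Complex.exp_im, hre, hr]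
        simp
      have hsin : 2 / π * |2 * π * u| ≤ |Real.sin (2 * π * u)| :=
        Real.mul_abs_le_abs_sin (by rw [abs_mul, abs_of_pos (by positivity)]; nlinarith)
      rw [him, abs_mul, abs_neg, abs_of_pos (Real.exp_pos _)]
      rw [abs_mul, abs_of_pos (by positivity : (0 : ℝ) < 2 * π),
        show 2 / π * (2 * π * |u|) = 4 * |u| by field_simp; ring] at hsin
      calc |u| ≤ 1 * (4 * |u|) := by linarith [abs_nonneg u]
        _ ≤ r * |Real.sin (2 * π * u)| :=
          mul_le_mul (Real.one_le_exp (by positivity)) hsin (by positivity) (Real.exp_pos _).le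
    · refine le_trans ?_ (abs_re_le_norm _)
      have hre' : (cexp (2 * π * (y - u * I)) - 1).re = r * Real.cos (2 * π * u) - 1 := by
        rw [sub_re, Complex.exp_re, hre, hr]
        simp
      have hcos : Real.cos (2 * π * u) ≤ 0 := by
        rw [← Real.cos_abs, abs_mul, abs_of_pos (by positivity : (0 : ℝ) < 2 * π)]
        exact Real.cos_nonpos_of_pi_div_two_le_of_le (by nlinarith) (by nlinarith)
      have hrc : r * Real.cos (2 * π * u) ≤ 0 :=
        mul_nonpos_of_nonneg_of_nonpos (Real.exp_pos _).le hcos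
      have hsimp : |u| ≤ 1 := by linarith
      rw [hre', abs_of_nonpos (show r * Real.cos (2 * π * u) - 1 ≤ 0 by linarith)]
      linarith
  linarith

theorem norm_dirichletKernel_le {M : ℕ} (hM : 0 < M) {u : ℝ} (hu : |u| ≤ 1 / 2) :
    ‖dirichletKernel M (M : ℝ)⁻¹ u‖ ≤
      2 * (Real.exp (4 * π) + 1) / ((M : ℝ)⁻¹ + |u|) := by
  have hM0 : (0 : ℝ) < M := Nat.cast_pos.2 hM
  set y := (M : ℝ)⁻¹ with hy
  have hy0 : 0 < y := inv_pos.2 hM0
  set w := cexp (2 * π * ((y : ℂ) - u * I)) with hw
  have hge := norm_exp_sub_one_ge hy0.le hu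
  rw [← hw] at hge
  have hpos : 0 < y + |u| := by positivity
  have hne : w ≠ 1 := fun h => by
    rw [h, sub_self, norm_zero] at hge
    linarith
  have hpow : ‖w ^ (M + 1)‖ ≤ Real.exp (4 * π) := by
    rw [norm_pow, hw, Complex.norm_exp, ← Real.exp_nat_mul, Real.exp_le_exp]
    simp only [mul_re, re_ofNat, ofReal_re, im_ofNat, ofReal_im, sub_re, sub_im, mul_im,
      Complex.I_re, Complex.I_im]
    have : ((M + 1 : ℕ) : ℝ) * y ≤ 2 := by
      rw [hy, Nat.cast_succ, add_mul, mul_inv_cancel₀ hM0.ne']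
      have : (M : ℝ)⁻¹ ≤ 1 := inv_le_one_of_one_le₀ (Nat.one_le_cast.2 hM)
      linarith
    nlinarith [Real.pi_pos]
  rw [dirichletKernel, ← hw, geom_sum_eq hne, norm_div]
  calc ‖w ^ (M + 1) - 1‖ / ‖w - 1‖ ≤ (Real.exp (4 * π) + 1) / ((y + |u|) / 2) := by
        refine div_le_div₀ (by positivity) ?_ (by linarith) hge
        exact (norm_sub_le _ _).trans (by rw [norm_one]; linarith)
    _ = _ := by field_simp

theorem integral_inv_add_abs {y : ℝ} (hy : 0 < y) :
    ∫ u in (-(1 / 2) : ℝ)..(1 / 2), (y + |u|)⁻¹ = 2 * Real.log ((y + 1 / 2) / y) := by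
  have hc : Continuous fun u : ℝ => (y + |u|)⁻¹ :=
    (continuous_const.add continuous_abs).inv₀ fun u =>
      (add_pos_of_pos_of_nonneg hy (abs_nonneg u)).ne'
  have h1 : ∫ u in (0 : ℝ)..(1 / 2), (y + |u|)⁻¹ = Real.log ((y + 1 / 2) / y) := by
    rw [intervalIntegral.integral_congr (g := fun u => (y + u)⁻¹) fun u hu => by
        rw [Set.uIcc_of_le (by norm_num)] at hu
        simp [abs_of_nonneg hu.1],
      intervalIntegral.integral_comp_add_left (fun u => u⁻¹), add_zero,
      integral_inv_of_pos hy (by linarith)]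
  have h2 : ∫ u in (-(1 / 2) : ℝ)..0, (y + |u|)⁻¹ = ∫ u in (0 : ℝ)..(1 / 2), (y + |u|)⁻¹ := by
    have h := intervalIntegral.integral_comp_neg (fun u => (y + |u|)⁻¹)
      (a := (0 : ℝ)) (b := 1 / 2)
    simp only [abs_neg, neg_zero] at h
    exact h.symm
  rw [← intervalIntegral.integral_add_adjacent_intervals (b := 0) (hc.intervalIntegrable _ _)
    (hc.intervalIntegrable _ _), h2, h1]
  ring

variable {N : ℕ} [NeZero N] {k : ℤ}

theorem wilton_bound (f : CuspForm (Gamma0 N) k) :
    ∃ C, 0 ≤ C ∧ ∀ (α : ℝ) (M : ℕ), 2 ≤ M →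
      ‖∑ n ∈ Finset.Icc 1 M, (qExpansion 1 f).coeff n * cexp (2 * π * I * n * α)‖ ≤
        C * (M : ℝ) ^ ((k : ℝ) / 2) * Real.log M := by
  obtain ⟨C, hC0, hC⟩ := norm_point_le f
  refine ⟨8 * (Real.exp (4 * π) + 1) * C, by positivity, fun α M hM => ?_⟩
  have hM0 : (0 : ℝ) < M := Nat.cast_pos.2 (by omega)
  set y := (M : ℝ)⁻¹ with hy
  have hy0 : 0 < y := inv_pos.2 hM0
  set G : ℝ → ℂ := fun u => f (ofComplex ((u + α : ℝ) + y * I)) * dirichletKernel M y u with hG
  have hGc : Continuous G :=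
    ((continuous_line f hy0).comp (continuous_add_const α)).mul (continuous_dirichletKernel M y)
  have hper : ∀ u : ℝ, f (ofComplex ((u + 1 : ℝ) + y * I)) = f (ofComplex (u + y * I)) :=
      fun u => by
    have h := SlashInvariantFormClass.periodic_comp_ofComplex f (one_mem_strictPeriods_Gamma0 N)
      ((u : ℂ) + y * I)
    simp only [Function.comp_apply, Complex.ofReal_one] at h
    rw [← h]
    congr 2
    push_cast
    ring
  have hcoeff : ∀ n : ℕ, (qExpansion 1 f).coeff n * cexp (2 * π * I * n * α) =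
      ∫ u in (-(1 / 2) : ℝ)..(1 / 2),
        f (ofComplex ((u + α : ℝ) + y * I)) * cexp (2 * π * (y - u * I)) ^ n := by
    intro n
    set g : ℝ → ℂ := fun x => f (ofComplex (x + y * I)) * cexp (-(2 * π * I * n * x)) with hg
    have hgp : Function.Periodic g 1 := fun x => by
      simp only [hg, hper]
      congr 1
      rw [Complex.exp_eq_exp_iff_exists_int]
      exact ⟨-(n : ℤ), by push_cast; ring⟩
    rw [coeff_eq_integral f n hy0, mul_comm _ (cexp _), ← mul_assoc, ofReal_exp, ← Complex.exp_add,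
      show (∫ x in (0 : ℝ)..1, f (ofComplex (x + y * I)) * cexp (-(2 * π * I * n * x))) =
        ∫ x in (0 : ℝ)..0 + 1, g x by rw [zero_add],
      hgp.intervalIntegral_add_eq 0 (-(1 / 2) + α),
      show -(1 / 2 : ℝ) + α + 1 = 1 / 2 + α by ring,
      ← intervalIntegral.integral_comp_add_right g α, ← intervalIntegral.integral_const_mul]
    refine intervalIntegral.integral_congr fun u _ => ?_
    simp only [hg]
    rw [← Complex.exp_nat_mul, mul_left_comm, ← Complex.exp_add]
    congr 2
    push_cast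
    ring
  have hsum : ∑ n ∈ Finset.Icc 1 M, (qExpansion 1 f).coeff n * cexp (2 * π * I * n * α) =
      ∫ u in (-(1 / 2) : ℝ)..(1 / 2), G u := by
    rw [Finset.sum_subset (s₂ := Finset.range (M + 1)) (fun n hn => by
      rw [Finset.mem_Icc] at hn; exact Finset.mem_range.2 (by omega)) (fun n hn hn' => by
      rw [Finset.mem_range] at hn
      rw [Finset.mem_Icc] at hn'
      rw [show n = 0 by omega, coeff_zero, zero_mul])]
    simp only [hcoeff]
    rw [← intervalIntegral.integral_finsetSum fun n _ => ?_]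
    · exact intervalIntegral.integral_congr fun u _ => by
        simp only [hG, dirichletKernel, Finset.mul_sum]
    · exact (((continuous_line f hy0).comp (continuous_add_const α)).mul
        (by fun_prop)).intervalIntegrable _ _
  have hbound : ∀ u ∈ Set.Icc (-(1 / 2) : ℝ) (1 / 2),
      ‖G u‖ ≤ C * y ^ (-(k : ℝ) / 2) * (2 * (Real.exp (4 * π) + 1)) * (y + |u|)⁻¹ := by
    intro u hu
    rw [norm_mul, mul_assoc _ (2 * (Real.exp (4 * π) + 1)), ← div_eq_mul_inv]
    exact mul_le_mul (hC y hy0 _) (norm_dirichletKernel_le (by omega) (abs_le.2 hu))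
      (norm_nonneg _) (mul_nonneg hC0 (Real.rpow_nonneg hy0.le _))
  have hlog : Real.log ((y + 1 / 2) / y) ≤ 2 * Real.log M := by
    have h2 : (2 : ℝ) ≤ M := by exact_mod_cast hM
    rw [hy, add_div, div_self (inv_ne_zero hM0.ne'), div_inv_eq_mul]
    calc Real.log (1 + 1 / 2 * M) ≤ Real.log ((M : ℝ) ^ 2) :=
          Real.log_le_log (by positivity) (by nlinarith)
      _ = _ := by rw [Real.log_pow]; norm_num
  rw [hsum]
  refine (intervalIntegral.norm_integral_le_integral_norm (by norm_num)).trans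
    ((intervalIntegral.integral_mono_on (by norm_num) hGc.norm.continuousOn.intervalIntegrable
      ?_ hbound).trans ?_)
  · exact (continuous_const.mul ((continuous_const.add continuous_abs).inv₀
      fun u => (add_pos_of_pos_of_nonneg hy0 (abs_nonneg u)).ne')).intervalIntegrable _ _
  rw [intervalIntegral.integral_const_mul, integral_inv_add_abs hy0]
  calc C * y ^ (-(k : ℝ) / 2) * (2 * (Real.exp (4 * π) + 1)) * (2 * Real.log ((y + 1 / 2) / y))
      ≤ C * y ^ (-(k : ℝ) / 2) * (2 * (Real.exp (4 * π) + 1)) * (2 * (2 * Real.log M)) := by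
        gcongr
    _ = _ := by
        rw [hy, Real.inv_rpow hM0.le, ← Real.rpow_neg hM0.le]
        ring_nf

end FA.VoronoiSummation

end
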