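import Mathlib.NumberTheory.ModularForms.Bounds
import Mathlib.NumberTheory.ModularForms.CongruenceSubgroups
import Mathlib.Analysis.Fourier.AddCircle
import Mathlib.Analysis.SpecialFunctions.Pow.Real
import Fermat.Prelude.Thm_CongruenceSubgroup_one_mem_strictPeriods_Gamma0

/-!
# Mean values of Fourier coefficients

Parseval on the line `im z = 1 / X`, where `|f| ≤ C X^(k/2)`, gives `∑_{n ≤ X} |a_n|² ≪ X^k`.
-/

set_option autoImplicit false

noncomputable section

namespace FA.VoronoiSummation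

open UpperHalfPlane hiding I
open Complex CongruenceSubgroup MeasureTheory Filter
open scoped MatrixGroups Real Topology

variable {N : ℕ} [NeZero N] {k : ℤ}

theorem norm_point_le (f : CuspForm (Gamma0 N) k) :
    ∃ C, 0 ≤ C ∧ ∀ y : ℝ, 0 < y → ∀ x : ℝ,
      ‖f (ofComplex (x + y * I))‖ ≤ C * y ^ (-(k : ℝ) / 2) := by
  obtain ⟨C, hC⟩ := CuspFormClass.exists_bound f
  refine ⟨max C 0, le_max_right _ _, fun y hy x => (hC _).trans ?_⟩
  rw [ofComplex_apply_of_im_pos (by simpa using hy), neg_div, Real.rpow_neg hy.le, div_eq_mul_inv]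
  simp only [UpperHalfPlane.im, add_im, ofReal_im, mul_im, ofReal_re, Complex.I_im, Complex.I_re,
    mul_one, mul_zero,
    add_zero, zero_add]
  exact mul_le_mul_of_nonneg_right (le_max_left _ _) (inv_nonneg.2 (Real.rpow_nonneg hy.le _))

omit [NeZero N] in
theorem continuous_line (f : CuspForm (Gamma0 N) k) {y : ℝ} (hy : 0 < y) :
    Continuous fun x : ℝ => f (ofComplex (x + y * I)) := by
  refine (ModularFormClass.holo f).continuous.comp
    (UpperHalfPlane.isEmbedding_coe.continuous_iff.2 ?_)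
  refine (by fun_prop : Continuous fun x : ℝ => (x : ℂ) + y * I).congr fun x => ?_
  simp [ofComplex_apply_of_im_pos (show 0 < ((x : ℂ) + y * I).im by simpa using hy)]

omit [NeZero N] in
theorem coeff_zero (f : CuspForm (Gamma0 N) k) : (qExpansion 1 f).coeff 0 = 0 :=
  CuspFormClass.qExpansion_coeff_zero f one_pos (one_mem_strictPeriods_Gamma0 N)

omit [NeZero N] in
theorem coeff_eq_integral (f : CuspForm (Gamma0 N) k) (n : ℕ) {y : ℝ} (hy : 0 < y) :
    (qExpansion 1 f).coeff n = (Real.exp (2 * π * n * y) : ℂ) *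
      ∫ x in (0 : ℝ)..1, f (ofComplex (x + y * I)) * cexp (-(2 * π * I * n * x)) := by
  rw [ModularFormClass.qExpansion_coeff_eq_intervalIntegral f one_pos
    (one_mem_strictPeriods_Gamma0 N) n hy, Complex.ofReal_one, div_one, one_mul,
    ← intervalIntegral.integral_const_mul]
  refine intervalIntegral.integral_congr fun x _ => ?_
  simp only [Function.Periodic.qParam]
  rw [ofComplex_apply_of_im_pos (by simpa using hy), ← Complex.exp_nat_mul, one_div,
    ← Complex.exp_neg, mul_left_comm (_ : ℂ) (f _), ofReal_exp, ← Complex.exp_add, mul_comm]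
  congr 2
  push_cast
  linear_combination (-(2 * π * n * y) : ℂ) * I_sq

theorem parseval_bound (f : CuspForm (Gamma0 N) k) :
    ∃ B, 0 ≤ B ∧ ∀ y : ℝ, 0 < y → ∀ U : Finset ℕ,
      ∑ n ∈ U, ‖(qExpansion 1 f).coeff n‖ ^ 2 * Real.exp (-(4 * π * n * y)) ≤
        B * y ^ (-(k : ℝ)) := by
  obtain ⟨C, hC0, hC⟩ := norm_point_le f
  refine ⟨C ^ 2, sq_nonneg C, fun y hy U => ?_⟩
  set g : ℝ → ℂ := fun x => f (ofComplex (x + y * I)) with hg
  have hcont : Continuous g := continuous_line f hy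
  have hgb : ∀ x, ‖g x‖ ^ 2 ≤ C ^ 2 * y ^ (-(k : ℝ)) := fun x => by
    refine (pow_le_pow_left₀ (norm_nonneg _) (hC y hy x) 2).trans_eq ?_
    rw [mul_pow, ← Real.rpow_natCast (y ^ _), ← Real.rpow_mul hy.le]
    norm_num
  have hL2 : MemLp g 2 (volume.restrict (Set.Ioc (0 : ℝ) 1)) :=
    MemLp.of_bound hcont.aestronglyMeasurable (C * y ^ (-(k : ℝ) / 2))
      (Eventually.of_forall fun x => hC y hy x)
  have hsum := hasSum_sq_fourierCoeffOn zero_lt_one hL2
  have hcoef : ∀ n : ℕ, ‖(qExpansion 1 f).coeff n‖ ^ 2 * Real.exp (-(4 * π * n * y)) =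
      ‖fourierCoeffOn zero_lt_one g n‖ ^ 2 := by
    intro n
    have hkey : fourierCoeffOn zero_lt_one g n =
        ∫ x in (0 : ℝ)..1, g x * cexp (-(2 * π * I * n * x)) := by
      rw [fourierCoeffOn_eq_integral, sub_zero, one_div_one, one_smul]
      refine intervalIntegral.integral_congr fun x _ => ?_
      simp only [fourier_coe_apply, smul_eq_mul, mul_comm (g x)]
      congr 2
      push_cast
      ring
    rw [coeff_eq_integral f n hy, hkey, norm_mul, Complex.norm_real, Real.norm_eq_abs, Real.abs_exp,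
      mul_pow, show Real.exp (-(4 * π * n * y)) = (Real.exp (2 * π * n * y) ^ 2)⁻¹ by
        rw [← Real.exp_nat_mul, ← Real.exp_neg]; congr 1; push_cast; ring]
    field_simp [Real.exp_ne_zero (2 * π * n * y)]
    simp only [hg]
    congr 3
    funext x
    ring_nf
  rw [Finset.sum_congr rfl fun n _ => hcoef n]
  refine (le_of_eq (Finset.sum_map U ⟨_, Nat.cast_injective (R := ℤ)⟩
    (fun i : ℤ => ‖fourierCoeffOn zero_lt_one g i‖ ^ 2)).symm).trans ?_
  refine (sum_le_hasSum _ (fun i _ => by positivity) hsum).trans ?_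
  rw [sub_zero, inv_one, one_smul]
  refine (intervalIntegral.integral_mono_on zero_le_one ((hcont.norm.pow 2).intervalIntegrable _ _)
    intervalIntegrable_const fun x _ => hgb x).trans ?_
  simp

theorem mean_square (f : CuspForm (Gamma0 N) k) :
    ∃ B, 0 ≤ B ∧ ∀ M : ℕ,
      ∑ n ∈ Finset.Icc 1 M, ‖(qExpansion 1 f).coeff n‖ ^ 2 ≤ B * (M : ℝ) ^ (k : ℝ) := by
  obtain ⟨B, hB0, hB⟩ := parseval_bound f
  refine ⟨B * Real.exp (4 * π), by positivity, fun M => ?_⟩
  rcases Nat.eq_zero_or_pos M with rfl | hM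
  · rw [Finset.Icc_eq_empty_of_lt zero_lt_one, Finset.sum_empty]
    positivity
  have hM0 : (0 : ℝ) < M := Nat.cast_pos.2 hM
  have h := hB (M : ℝ)⁻¹ (inv_pos.2 hM0) (Finset.Icc 1 M)
  rw [Real.inv_rpow hM0.le, Real.rpow_neg hM0.le, inv_inv] at h
  calc ∑ n ∈ Finset.Icc 1 M, ‖(qExpansion 1 f).coeff n‖ ^ 2
      ≤ ∑ n ∈ Finset.Icc 1 M, ‖(qExpansion 1 f).coeff n‖ ^ 2 *
          Real.exp (-(4 * π * n * (M : ℝ)⁻¹)) * Real.exp (4 * π) := by
        refine Finset.sum_le_sum fun n hn => ?_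
        rw [mul_assoc, ← Real.exp_add]
        refine le_mul_of_one_le_right (by positivity) (Real.one_le_exp ?_)
        have : (n : ℝ) * (M : ℝ)⁻¹ ≤ 1 := by
          rw [← div_eq_mul_inv, div_le_one hM0]
          exact_mod_cast (Finset.mem_Icc.1 hn).2
        nlinarith [Real.pi_pos]
    _ ≤ B * (M : ℝ) ^ (k : ℝ) * Real.exp (4 * π) := by
        rw [← Finset.sum_mul]
        exact mul_le_mul_of_nonneg_right h (Real.exp_pos _).le
    _ = _ := by ring

theorem mean_abs (f : CuspForm (Gamma0 N) k) :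
    ∃ B, 0 ≤ B ∧ ∀ M : ℕ,
      ∑ n ∈ Finset.Icc 1 M, ‖(qExpansion 1 f).coeff n‖ ≤ B * (M : ℝ) ^ (((k : ℝ) + 1) / 2) := by
  obtain ⟨B, hB0, hB⟩ := mean_square f
  refine ⟨√B, Real.sqrt_nonneg B, fun M => ?_⟩
  rcases Nat.eq_zero_or_pos M with rfl | hM
  · rw [Finset.Icc_eq_empty_of_lt zero_lt_one, Finset.sum_empty]
    positivity
  have hM0 : (0 : ℝ) < M := Nat.cast_pos.2 hM
  refine nonneg_le_nonneg_of_sq_le_sq (by positivity) ?_
  rw [← sq, ← sq]
  calc (∑ n ∈ Finset.Icc 1 M, ‖(qExpansion 1 f).coeff n‖) ^ 2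
      ≤ (Finset.Icc 1 M).card * ∑ n ∈ Finset.Icc 1 M, ‖(qExpansion 1 f).coeff n‖ ^ 2 :=
        sq_sum_le_card_mul_sum_sq
    _ ≤ (M : ℝ) * (B * (M : ℝ) ^ (k : ℝ)) := by
        rw [Nat.card_Icc, Nat.add_sub_cancel]
        exact mul_le_mul_of_nonneg_left (hB M) hM0.le
    _ = _ := by
        rw [mul_pow, Real.sq_sqrt hB0, ← Real.rpow_natCast _ 2, ← Real.rpow_mul hM0.le,
          Nat.cast_ofNat, div_mul_cancel₀ _ two_ne_zero, Real.rpow_add hM0, Real.rpow_one]
        ring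

theorem summable_rpow (f : CuspForm (Gamma0 N) k) {σ : ℝ} (hσ0 : 0 ≤ σ)
    (hσ : ((k : ℝ) + 1) / 2 < σ) :
    Summable fun n : ℕ => ‖(qExpansion 1 f).coeff n‖ * (n : ℝ) ^ (-σ) := by
  obtain ⟨B, hB0, hB⟩ := mean_abs f
  set e : ℝ := ((k : ℝ) + 1) / 2
  set ρ : ℝ := (2 : ℝ) ^ (e - σ) with hρ
  have hρ0 : 0 < ρ := Real.rpow_pos_of_pos two_pos _
  have hρ1 : ρ < 1 := Real.rpow_lt_one_of_one_lt_of_neg one_lt_two (by linarith)
  set F : ℕ → ℝ := fun n => ‖(qExpansion 1 f).coeff n‖ * (n : ℝ) ^ (-σ) with hF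
  have hblock : ∀ J : ℕ, ∑ n ∈ Finset.range (2 ^ J), F n ≤
      ∑ j ∈ Finset.range J, B * (2 : ℝ) ^ e * ρ ^ j := by
    intro J
    induction J with
    | zero => simp [hF, coeff_zero]
    | succ J ih =>
      rw [← Finset.sum_range_add_sum_Ico _ (Nat.pow_le_pow_right two_pos J.le_succ),
        Finset.sum_range_succ]
      refine add_le_add ih ?_
      have h2 : (0 : ℝ) < (2 : ℝ) ^ J := by positivity
      calc ∑ n ∈ Finset.Ico (2 ^ J) (2 ^ (J + 1)), F n
          ≤ ∑ n ∈ Finset.Ico (2 ^ J) (2 ^ (J + 1)),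
              ‖(qExpansion 1 f).coeff n‖ * ((2 : ℝ) ^ J) ^ (-σ) := by
            refine Finset.sum_le_sum fun n hn => mul_le_mul_of_nonneg_left ?_ (norm_nonneg _)
            exact Real.rpow_le_rpow_of_nonpos h2 (by exact_mod_cast (Finset.mem_Ico.1 hn).1)
              (by linarith)
        _ ≤ (∑ n ∈ Finset.Icc 1 (2 ^ (J + 1)), ‖(qExpansion 1 f).coeff n‖) *
              ((2 : ℝ) ^ J) ^ (-σ) := by
            rw [← Finset.sum_mul]
            refine mul_le_mul_of_nonneg_right ?_ (Real.rpow_nonneg h2.le _)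
            refine Finset.sum_le_sum_of_subset_of_nonneg (fun n hn => ?_) fun n _ _ => norm_nonneg _
            rw [Finset.mem_Ico] at hn
            exact Finset.mem_Icc.2 ⟨le_trans Nat.one_le_two_pow hn.1, hn.2.le⟩
        _ ≤ B * ((2 ^ (J + 1) : ℕ) : ℝ) ^ e * ((2 : ℝ) ^ J) ^ (-σ) :=
            mul_le_mul_of_nonneg_right (hB _) (Real.rpow_nonneg h2.le _)
        _ = B * (2 : ℝ) ^ e * ρ ^ J := by
            rw [hρ, Nat.cast_pow, Nat.cast_ofNat, pow_succ, Real.mul_rpow h2.le two_pos.le,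
              Real.rpow_pow_comm two_pos.le, sub_eq_add_neg, Real.rpow_add h2]
            ring
  refine summable_of_sum_range_le (c := B * (2 : ℝ) ^ e * (1 - ρ)⁻¹)
    (fun n => by positivity) fun n => ?_
  refine (Finset.sum_le_sum_of_subset_of_nonneg
    (Finset.range_mono n.lt_two_pow_self.le) fun i _ _ => by positivity).trans ((hblock n).trans ?_)
  rw [← Finset.mul_sum, ← tsum_geometric_of_lt_one hρ0.le hρ1]
  refine mul_le_mul_of_nonneg_left ?_ (by positivity)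
  exact (summable_geometric_of_lt_one hρ0.le hρ1).sum_le_tsum _ fun i _ => by positivity

/-- `∑ |a_n| e^(-ε n) ≪ ε^(-σ)` for `σ > (k + 1)/2`. -/
theorem exp_majorant (f : CuspForm (Gamma0 N) k) {σ : ℝ} (hσ0 : 0 < σ)
    (hσ : ((k : ℝ) + 1) / 2 < σ) :
    ∃ B, 0 ≤ B ∧ ∀ ε : ℝ, 0 < ε →
      Summable (fun n : ℕ => ‖(qExpansion 1 f).coeff n‖ * Real.exp (-(ε * n))) ∧
      ∑' n : ℕ, ‖(qExpansion 1 f).coeff n‖ * Real.exp (-(ε * n)) ≤ B * ε ^ (-σ) := by
  have hs := summable_rpow f hσ0.le hσ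
  refine ⟨(∑' n : ℕ, ‖(qExpansion 1 f).coeff n‖ * (n : ℝ) ^ (-σ)) * σ ^ σ,
    mul_nonneg (tsum_nonneg fun n => by positivity) (by positivity), fun ε hε => ?_⟩
  have hle : ∀ n : ℕ, ‖(qExpansion 1 f).coeff n‖ * Real.exp (-(ε * n)) ≤
      ‖(qExpansion 1 f).coeff n‖ * (n : ℝ) ^ (-σ) * (σ ^ σ * ε ^ (-σ)) := by
    intro n
    rcases Nat.eq_zero_or_pos n with rfl | hn
    · simp [coeff_zero]
    rw [mul_assoc]
    refine mul_le_mul_of_nonneg_left ?_ (norm_nonneg _)
    have hn0 : (0 : ℝ) < n := Nat.cast_pos.2 hn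
    have h1 : ε * n / σ ≤ Real.exp (ε * n / σ) := by
      linarith [Real.add_one_le_exp (ε * n / σ)]
    have h2 := Real.rpow_le_rpow (by positivity) h1 hσ0.le
    rw [← Real.exp_mul, div_mul_cancel₀ _ hσ0.ne', Real.div_rpow (by positivity) hσ0.le,
      div_le_iff₀ (by positivity), Real.mul_rpow hε.le hn0.le] at h2
    rw [Real.exp_neg, Real.rpow_neg hn0.le, Real.rpow_neg hε.le,
      inv_le_iff_one_le_mul₀ (Real.exp_pos _)]
    field_simp
    linarith
  have hsum := (hs.mul_right (σ ^ σ * ε ^ (-σ))).of_nonneg_of_le (fun n => by positivity) hle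
  refine ⟨hsum, (hsum.tsum_le_tsum hle (hs.mul_right _)).trans_eq ?_⟩
  rw [tsum_mul_right]
  ring

end FA.VoronoiSummation

end
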