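import Fermat.Agent.VoronoiSummation.Bounds
import Fermat.Agent.PeterssonTrace.Bessel
import Mathlib.Analysis.Fourier.FourierTransformDeriv
import Mathlib.Analysis.Fourier.Inversion

/-!
# Voronoi's summation formula

Fourier inversion writes `∑ a_n e(a n / c) g(n)` as an integral of `f(a/c + u + i)`; the
modularity turns this into a series in the dual coefficients with Bessel transforms of `g`.
-/

set_option autoImplicit false

noncomputable section

namespace FA.VoronoiSummation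

open UpperHalfPlane hiding I
open Complex CongruenceSubgroup MeasureTheory Filter FourierTransform
open scoped MatrixGroups Real Topology ModularForm

variable {N : ℕ} [NeZero N] {k : ℕ}

/-- `g(x) e^(2π x)`. -/
def damped (g : ℝ → ℂ) (x : ℝ) : ℂ := g x * (Real.exp (2 * π * x) : ℂ)

theorem fourier_damped (g : ℝ → ℂ) (u : ℝ) :
    𝓕 (damped g) u = ∫ x : ℝ, g x * cexp (-(2 * π * I * x * Poincare.pt u 1)) := by
  rw [Real.fourier_real_eq_integral_exp_smul]
  refine integral_congr_ae (Eventually.of_forall fun x => ?_)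
  simp only [damped, smul_eq_mul, Poincare.pt]
  rw [mul_left_comm, ofReal_exp, ← Complex.exp_add]
  congr 2
  push_cast
  linear_combination (2 * π * x : ℂ) * I_sq

theorem fourier_damped_decay {g : ℝ → ℂ} (hg : ContDiff ℝ 4 g) (hs : HasCompactSupport g) :
    Continuous (𝓕 (damped g)) ∧
      ∃ K, 0 ≤ K ∧ ∀ u : ℝ, ‖𝓕 (damped g) u‖ ≤ K * ((1 + u ^ 2) ^ 2)⁻¹ := by
  have hh : ContDiff ℝ 4 (damped g) :=
    hg.mul (Complex.ofRealCLM.contDiff.comp
      (Real.contDiff_exp.comp (contDiff_const.mul contDiff_id)))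
  have hhs : HasCompactSupport (damped g) := hs.mul_right
  have hiter : ∀ n : ℕ, n ≤ 4 → Integrable (iteratedDeriv n (damped g)) := fun n hn =>
    (hh.continuous_iteratedDeriv n (by exact_mod_cast hn)).integrable_of_hasCompactSupport
      ((hhs.iteratedFDeriv n).mono' fun x hx => subset_tsupport _ fun h0 => hx (by
        rw [iteratedDeriv_eq_iteratedFDeriv, h0]
        rfl))
  have h0 : Integrable (damped g) := by simpa using hiter 0 (by norm_num)
  have hcont : Continuous (𝓕 (damped g)) := VectorFourier.fourierIntegral_continuous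
    Real.continuous_fourierChar (by fun_prop) h0
  refine ⟨hcont, ?_⟩
  set K0 : ℝ := ∫ x, ‖damped g x‖
  set K4 : ℝ := ∫ x, ‖iteratedDeriv 4 (damped g) x‖
  refine ⟨2 * (K0 + K4), by positivity, fun u => ?_⟩
  have hnorm : ∀ φ : ℝ → ℂ, ‖𝓕 φ u‖ ≤ ∫ x, ‖φ x‖ := fun φ => by
    rw [Real.fourier_real_eq_integral_exp_smul]
    refine (norm_integral_le_integral_norm _).trans_eq (integral_congr_ae (Eventually.of_forall ?_))
    intro x
    simp only [norm_smul, Complex.norm_exp_ofReal_mul_I, one_mul]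
  have h4 : (2 * π * |u|) ^ 4 * ‖𝓕 (damped g) u‖ ≤ K4 := by
    have h := congrFun (Real.fourier_iteratedDeriv (N := (4 : ℕ∞)) (n := 4)
      (f := damped g) (by exact_mod_cast hh) (fun n hn => hiter n (by exact_mod_cast hn))
      le_rfl) u
    have hb := hnorm (iteratedDeriv 4 (damped g))
    rw [h, norm_smul, norm_pow] at hb
    simpa [abs_of_pos Real.pi_pos] using hb
  have hu4 : u ^ 4 ≤ (2 * π * |u|) ^ 4 := by
    rw [mul_pow, Even.pow_abs ⟨2, rfl⟩]
    exact le_mul_of_one_le_left (by positivity) (one_le_pow₀ (by linarith [Real.pi_gt_three]))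
  rw [← div_eq_mul_inv, le_div_iff₀ (by positivity)]
  calc ‖𝓕 (damped g) u‖ * (1 + u ^ 2) ^ 2 ≤ ‖𝓕 (damped g) u‖ * (2 * (1 + u ^ 4)) := by
        gcongr
        nlinarith [sq_nonneg (u ^ 2 - 1)]
    _ ≤ 2 * (K0 + K4) := by
        nlinarith [hnorm (damped g), mul_le_mul_of_nonneg_right hu4 (norm_nonneg (𝓕 (damped g) u))]

theorem integrable_inv_one_add_sq_sq : Integrable fun u : ℝ => ((1 + u ^ 2) ^ 2)⁻¹ := by
  refine integrable_inv_one_add_sq.mono' ?_ (Eventually.of_forall fun u => ?_)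
  · exact (Continuous.inv₀ (by fun_prop : Continuous fun u : ℝ => (1 + u ^ 2) ^ 2)
      fun u => by positivity).aestronglyMeasurable
  · rw [Real.norm_of_nonneg (by positivity)]
    refine inv_anti₀ (by positivity) ?_
    nlinarith [sq_nonneg u]

theorem hasSum_point (f : CuspForm (Gamma0 N) (k : ℤ)) (z : ℂ) (hz : 0 < z.im) :
    HasSum (fun n : ℕ => (qExpansion 1 f).coeff n * cexp (2 * π * I * z) ^ n)
      (f (ofComplex z)) := by
  rw [ofComplex_apply_of_im_pos hz]
  simpa [Function.Periodic.qParam] using ModularForm.hasSum_qExpansion (f := f) one_pos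
    (one_mem_strictPeriods_Gamma0 N) ⟨z, hz⟩

theorem lhs_eq_integral {g : ℝ → ℂ} (hg : ContDiff ℝ 4 g) (hs : HasCompactSupport g)
    (f : CuspForm (Gamma0 N) (k : ℤ)) (q : ℝ) :
    HasSum (fun n : ℕ => (qExpansion 1 f).coeff n * cexp (2 * π * I * n * q) * g n)
      (∫ u : ℝ, f (ofComplex (((u + q : ℝ) : ℂ) + (1 : ℝ) * I)) * 𝓕 (damped g) u) := by
  obtain ⟨hc, K, hK0, hK⟩ := fourier_damped_decay hg hs
  have hG : Integrable (𝓕 (damped g)) :=
    (integrable_inv_one_add_sq_sq.const_mul K).mono' hc.aestronglyMeasurable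
      (Eventually.of_forall hK)
  set t : ℕ → ℝ → ℂ := fun n u => (qExpansion 1 f).coeff n *
    cexp (2 * π * I * (((u + q : ℝ) : ℂ) + (1 : ℝ) * I)) ^ n * 𝓕 (damped g) u with ht
  have htn : ∀ n u, ‖t n u‖ =
      ‖(qExpansion 1 f).coeff n‖ * Real.exp (-(2 * π * n)) * ‖𝓕 (damped g) u‖ := fun n u => by
    simp only [ht, norm_mul, norm_pow, Complex.norm_exp]
    rw [← Real.exp_nat_mul]
    congr 3
    simp [mul_re, mul_im]
    ring
  have hint : ∀ n, Integrable (t n) := fun n => by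
    refine (hG.norm.const_mul (‖(qExpansion 1 f).coeff n‖ * Real.exp (-(2 * π * n)))).mono'
      ((Continuous.mul (by fun_prop) hc).aestronglyMeasurable)
      (Eventually.of_forall fun u => (htn n u).le)
  have hsum : Summable fun n => ∫ u, ‖t n u‖ := by
    obtain ⟨B, -, hB⟩ := exp_majorant f (σ := |((k : ℤ) : ℝ)| + 2) (by positivity) (by
      have := le_abs_self (((k : ℤ)) : ℝ)
      have := abs_nonneg (((k : ℤ)) : ℝ)
      linarith)
    refine ((hB (2 * π) (by positivity)).1.mul_right (∫ u, ‖𝓕 (damped g) u‖)).congr fun n => ?_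
    simp only [htn, integral_const_mul]
  have h := hasSum_integral_of_summable_integral_norm hint hsum
  rw [show (∫ u, ∑' n, t n u) =
      ∫ u, f (ofComplex (((u + q : ℝ) : ℂ) + (1 : ℝ) * I)) * 𝓕 (damped g) u from
    integral_congr_ae (Eventually.of_forall fun u => by
      show (∑' n, (qExpansion 1 f).coeff n *
        cexp (2 * π * I * (((u + q : ℝ) : ℂ) + (1 : ℝ) * I)) ^ n * 𝓕 (damped g) u) = _
      rw [tsum_mul_right, (hasSum_point f _ (by simp)).tsum_eq])] at h
  refine h.congr_fun fun n => ?_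
  have hinv : 𝓕⁻ (𝓕 (damped g)) (n : ℝ) = damped g n := by
    have hd : Continuous (damped g) := hg.continuous.mul (by fun_prop)
    rw [hd.fourierInv_fourier_eq (hd.integrable_of_hasCompactSupport hs.mul_right) hG]
  rw [Real.fourierInv_eq'] at hinv
  simp only [ht]
  have e : ∀ u : ℝ, (qExpansion 1 f).coeff n *
      cexp (2 * π * I * (((u + q : ℝ) : ℂ) + (1 : ℝ) * I)) ^ n * 𝓕 (damped g) u =
      (qExpansion 1 f).coeff n * cexp (2 * π * I * n * q) * (Real.exp (-(2 * π * n)) : ℂ) *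
        (cexp ((↑(2 * π * inner ℝ u (n : ℝ)) : ℂ) * I) • 𝓕 (damped g) u) := fun u => by
    rw [smul_eq_mul, ← mul_assoc, mul_assoc _ (cexp (2 * π * I * n * q)),
      mul_assoc _ (_ * _) (cexp _), ofReal_exp, ← Complex.exp_add, ← Complex.exp_add,
      ← Complex.exp_nat_mul]
    congr 3
    simp
    linear_combination (2 * π * n : ℂ) * I_sq
  simp only [e, integral_const_mul, hinv, damped]
  rw [mul_assoc _ (Real.exp _ : ℂ), mul_left_comm (Real.exp _ : ℂ), ← ofReal_mul,
    ← Real.exp_add, neg_add_cancel, Real.exp_zero, ofReal_one, mul_one]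

theorem div_pt (A u : ℝ) :
    (A : ℂ) / Poincare.pt u 1 = ((A / (u ^ 2 + 1) : ℝ) : ℂ) * (u - I) := by
  rw [div_eq_iff (Poincare.pt_ne_zero one_pos), Poincare.pt]
  push_cast
  field_simp [show ((u : ℂ) ^ 2 + 1) ≠ 0 by
    exact_mod_cast (show u ^ 2 + 1 ≠ 0 by positivity)]
  linear_combination (A : ℂ) * I_sq

theorem dual_point_im_pos (d : ℤ) {c : ℕ} (hc : c ≠ 0) {τ : ℂ} (hτ : 0 < τ.im) :
    0 < (-(d : ℂ) / c - 1 / ((c : ℂ) ^ 2 * τ)).im := by
  have hτ0 : τ ≠ 0 := fun h => by simp [h] at hτ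
  have h1 : (1 / ((c : ℂ) ^ 2 * τ)).im < 0 := by
    rw [show (c : ℂ) ^ 2 = (((c : ℝ) ^ 2 : ℝ) : ℂ) by push_cast; rfl, one_div, Complex.inv_im,
      im_ofReal_mul]
    have : (0 : ℝ) < (c : ℝ) ^ 2 := by positivity
    exact div_neg_of_neg_of_pos (by nlinarith)
      (normSq_pos.2 (mul_ne_zero (ofReal_ne_zero.2 this.ne') hτ0))
  have h2 : (-(d : ℂ) / c).im = 0 := by simp [Complex.div_im]
  rw [sub_im, h2]
  linarith

omit [NeZero N] in
theorem modular_point (f : CuspForm (Gamma0 N) (k : ℤ)) (hk : Even k) {c : ℕ} (hc : c ≠ 0)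
    (hN : N ∣ c) {a d : ℤ} (had : (c : ℤ) ∣ a * d - 1) {τ : ℂ} (hτ : 0 < τ.im) :
    f (ofComplex ((a : ℂ) / c + τ)) =
      (((c : ℂ) * τ) ^ k)⁻¹ * f (ofComplex (-(d : ℂ) / c - 1 / ((c : ℂ) ^ 2 * τ))) := by
  obtain ⟨b, hb⟩ := had
  let γ : SL(2, ℤ) := ⟨!![a, b; (c : ℤ), d], by rw [Matrix.det_fin_two_of]; linarith⟩
  have hγ : γ ∈ Gamma0 N := by
    rw [Poincare.mem_Gamma0_iff]
    exact Int.natCast_dvd_natCast.2 hN
  have hcC : (c : ℂ) ≠ 0 := Nat.cast_ne_zero.2 hc
  have hτ0 : τ ≠ 0 := fun h => by simp [h] at hτ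
  have hw := dual_point_im_pos d hc hτ
  set w : ℍ := ⟨_, hw⟩ with hwdef
  have hden : (c : ℂ) * (w : ℂ) + d = -(1 / ((c : ℂ) * τ)) := by
    show (c : ℂ) * (-(d : ℂ) / c - 1 / ((c : ℂ) ^ 2 * τ)) + d = _
    field_simp
    ring
  have hbC : (a : ℂ) * d - 1 = (c : ℂ) * b := by exact_mod_cast hb
  have himg : ((γ • w : ℍ) : ℂ) = (a : ℂ) / c + τ := by
    rw [UpperHalfPlane.specialLinearGroup_apply]
    simp only [γ, algebraMap_int_eq, eq_intCast, ofReal_intCast]
    show ((a : ℂ) * (w : ℂ) + b) / ((((c : ℤ)) : ℂ) * (w : ℂ) + d) = _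
    rw [Int.cast_natCast, hden, div_eq_iff (by simp [hcC, hτ0])]
    show (a : ℂ) * (-(d : ℂ) / c - 1 / ((c : ℂ) ^ 2 * τ)) + b = _
    field_simp
    linear_combination (-(c : ℂ) * τ) * hbC
  have h := congrFun (Poincare.slash_of_mem f hγ) w
  rw [ModularForm.SL_slash_apply, ModularGroup.denom_apply] at h
  simp only [γ, Matrix.of_apply, Matrix.cons_val', Matrix.cons_val_one, Matrix.cons_val_zero] at h
  rw [Int.cast_natCast, hden, zpow_neg, zpow_natCast, hk.neg_pow, one_div, inv_pow, inv_inv] at h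
  rw [ofComplex_apply_of_im_pos (by simpa [Complex.div_im] using hτ),
    ofComplex_apply_of_im_pos hw, ← hwdef,
    show (⟨(a : ℂ) / c + τ, by simpa [Complex.div_im] using hτ⟩ : ℍ) = γ • w from
      UpperHalfPlane.ext himg.symm, ← h]
  field_simp
  rfl

theorem voronoi_hasSum {g : ℝ → ℂ} (hg : ContDiff ℝ 4 g) (hs : HasCompactSupport g)
    (hpos : ∀ x ≤ 0, g x = 0) (hk : 4 ≤ k) (he : Even k) (f : CuspForm (Gamma0 N) (k : ℤ))
    {c : ℕ} (hc : c ≠ 0) (hN : N ∣ c) {a d : ℤ} (had : (c : ℤ) ∣ a * d - 1) :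
    HasSum (fun m : ℕ => 2 * π * I ^ k / c * ((qExpansion 1 f).coeff m *
        cexp (-(2 * π * I * d * m / c)) * ∫ x in Set.Ioi (0 : ℝ), g x *
          (((√x / √m) ^ (k - 1) *
            PeterssonTrace.besselJ (k - 1) (4 * π * √((m : ℝ) * x) / c) : ℝ) : ℂ)))
      (∑' n : ℕ, (qExpansion 1 f).coeff n * cexp (2 * π * I * a * n / c) * g n) := by
  obtain ⟨hGc, K, hK0, hK⟩ := fourier_damped_decay hg hs
  have hl := lhs_eq_integral hg hs f ((a : ℝ) / c)
  have hL : (∑' n : ℕ, (qExpansion 1 f).coeff n * cexp (2 * π * I * a * n / c) * g n) =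
      ∫ u : ℝ, f (ofComplex (((u + (a : ℝ) / c : ℝ) : ℂ) + (1 : ℝ) * I)) * 𝓕 (damped g) u := by
    rw [← hl.tsum_eq]
    refine tsum_congr fun n => ?_
    congr 2
    congr 1
    push_cast
    ring
  rw [hL]
  have hcR : (0 : ℝ) < c := by exact_mod_cast hc.bot_lt
  have hcC : (c : ℂ) ≠ 0 := Nat.cast_ne_zero.2 hc
  set b : ℕ → ℂ := fun m => (qExpansion 1 f).coeff m * cexp (-(2 * π * I * d * m / c)) *
    (((c : ℂ) ^ k)⁻¹) with hb
  set t : ℕ → ℝ → ℂ := fun m u => b m * ((Poincare.pt u 1 ^ k)⁻¹ *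
    cexp (-(2 * π * I * ((((m : ℝ) / (c : ℝ) ^ 2 : ℝ) : ℂ) / Poincare.pt u 1))) *
      𝓕 (damped g) u) with ht
  have hpt : Continuous fun u : ℝ => Poincare.pt u 1 := by unfold Poincare.pt; fun_prop
  have hpt0 : ∀ u : ℝ, Poincare.pt u 1 ≠ 0 := fun u => Poincare.pt_ne_zero one_pos
  have htc : ∀ m, Continuous (t m) := fun m =>
    continuous_const.mul ((((hpt.pow k).inv₀ fun u => pow_ne_zero k (hpt0 u)).mul
      (Complex.continuous_exp.comp (continuous_const.mul
        (continuous_const.div hpt hpt0)).neg)).mul hGc)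
  have htn : ∀ m u, ‖t m u‖ = ‖(qExpansion 1 f).coeff m‖ *
      Real.exp (-(2 * π / ((c : ℝ) ^ 2 * (1 + u ^ 2)) * m)) *
      (((c : ℝ) ^ k)⁻¹ * ((1 + u ^ 2) ^ ((k : ℝ) / 2))⁻¹ * ‖𝓕 (damped g) u‖) := by
    intro m u
    have hn : ‖Poincare.pt u 1‖ ^ k = (1 + u ^ 2) ^ ((k : ℝ) / 2) := by
      rw [Complex.norm_def, Poincare.normSq_pt, Real.sqrt_eq_rpow, ← Real.rpow_natCast,
        ← Real.rpow_mul (by positivity), one_pow, add_comm (u ^ 2)]
      ring_nf
    have he1 : ‖cexp (-(2 * π * I * d * m / c))‖ = 1 := by simp [Complex.norm_exp, Complex.div_re]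
    have he2 : ‖cexp (-(2 * π * I * ((((m : ℝ) / (c : ℝ) ^ 2 : ℝ) : ℂ) / Poincare.pt u 1)))‖ =
        Real.exp (-(2 * π / ((c : ℝ) ^ 2 * (1 + u ^ 2)) * m)) := by
      rw [Complex.norm_exp, div_pt]
      congr 1
      simp only [neg_re, mul_re, mul_im, ofReal_re, ofReal_im, re_ofNat, im_ofNat, sub_re, sub_im,
        Complex.I_re, Complex.I_im]
      field_simp
      ring
    simp only [ht, hb, norm_mul, norm_inv, norm_pow, he1, he2, hn, Complex.norm_natCast]
    ring
  set σ : ℝ := (k : ℝ) / 2 + 1 with hσ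
  obtain ⟨B, hB0, hB⟩ := exp_majorant f (σ := σ) (by positivity) (by
    rw [hσ, Int.cast_natCast]; linarith)
  set W : ℝ → ℝ := fun u =>
    B * (2 * π / (c : ℝ) ^ 2) ^ (-σ) * ((c : ℝ) ^ k)⁻¹ * K * (1 + u ^ 2)⁻¹ with hW
  have hWint : Integrable W := integrable_inv_one_add_sq.const_mul _
  have hmaj : ∀ (u : ℝ) (U : Finset ℕ), ∑ m ∈ U, ‖t m u‖ ≤ W u := by
    intro u U
    have hu : (0 : ℝ) < 1 + u ^ 2 := by positivity
    obtain ⟨hsum, hle⟩ := hB (2 * π / ((c : ℝ) ^ 2 * (1 + u ^ 2))) (by positivity)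
    simp only [htn, ← Finset.sum_mul]
    refine (mul_le_mul ((hsum.sum_le_tsum U fun i _ => by positivity).trans hle)
      (mul_le_mul_of_nonneg_left (hK u) (by positivity)) (by positivity)
        (by positivity)).trans_eq ?_
    rw [← div_div, Real.div_rpow (by positivity) hu.le, Real.rpow_neg hu.le, div_inv_eq_mul,
      show (1 + u ^ 2) ^ σ = (1 + u ^ 2) ^ ((k : ℝ) / 2) * (1 + u ^ 2) by
        rw [hσ, Real.rpow_add hu, Real.rpow_one]]
    simp only [hW]
    field_simp
  have hint : ∀ m, Integrable (t m) := fun m =>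
    hWint.mono' (htc m).aestronglyMeasurable (Eventually.of_forall fun u => by
      simpa using hmaj u {m})
  have hsum : Summable fun m => ∫ u, ‖t m u‖ := by
    refine summable_of_sum_le (c := ∫ u, W u) (fun m => integral_nonneg fun u => norm_nonneg _)
      fun U => ?_
    rw [← integral_finsetSum _ fun m _ => (hint m).norm]
    exact integral_mono (integrable_finsetSum _ fun m _ => (hint m).norm) hWint fun u => hmaj u U
  have h := hasSum_integral_of_summable_integral_norm hint hsum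
  rw [show (∫ u, ∑' m, t m u) =
      ∫ u : ℝ, f (ofComplex (((u + (a : ℝ) / c : ℝ) : ℂ) + (1 : ℝ) * I)) * 𝓕 (damped g) u from
    integral_congr_ae (Eventually.of_forall fun u => ?_)] at h
  swap
  · have hτ : 0 < (Poincare.pt u 1).im := by simp [Poincare.pt]
    have himw := dual_point_im_pos d hc hτ
    show (∑' m, t m u) =
      f (ofComplex (((u + (a : ℝ) / c : ℝ) : ℂ) + (1 : ℝ) * I)) * 𝓕 (damped g) u
    rw [show ((u + (a : ℝ) / c : ℝ) : ℂ) + (1 : ℝ) * I = (a : ℂ) / c + Poincare.pt u 1 by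
      simp [Poincare.pt]; ring, modular_point f he hc hN had hτ,
      ← (hasSum_point f _ himw).tsum_eq, ← tsum_mul_left, ← tsum_mul_right]
    refine tsum_congr fun m => ?_
    have hexp : cexp (2 * π * I * (-(d : ℂ) / c - 1 / ((c : ℂ) ^ 2 * Poincare.pt u 1))) ^ m =
        cexp (-(2 * π * I * d * m / c)) *
          cexp (-(2 * π * I * ((((m : ℝ) / (c : ℝ) ^ 2 : ℝ) : ℂ) / Poincare.pt u 1))) := by
      rw [← Complex.exp_nat_mul, ← Complex.exp_add]
      congr 1
      push_cast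
      field_simp
      ring
    simp only [ht, hb, hexp, mul_pow, mul_inv]
    ring
  refine h.congr_fun fun m => ?_
  rcases Nat.eq_zero_or_pos m with rfl | hm
  · simp [ht, hb, coeff_zero]
  set A : ℝ := (m : ℝ) / (c : ℝ) ^ 2 with hA
  have hA0 : 0 < A := by positivity
  set φ : ℝ → ℝ → ℂ := fun u x => g x * PeterssonTrace.realProfile k A x 1 u with hφ
  have hgc := hg.continuous
  have e1 : ∀ u : ℝ, t m u = b m * ∫ x, φ u x := by
    intro u
    simp only [ht, fourier_damped, ← integral_const_mul, hφ, hA]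
    refine integral_congr_ae (Eventually.of_forall fun x => ?_)
    simp only [PeterssonTrace.realProfile, zpow_neg, zpow_natCast, mul_add, neg_add,
      Complex.exp_add]
    ring_nf
  have hφint : Integrable (Function.uncurry φ) (volume.prod volume) := by
    have hd : Continuous (damped g) := hgc.mul (by fun_prop)
    have hd2 : Integrable (fun x => ‖damped g x‖) :=
      hd.norm.integrable_of_hasCompactSupport hs.mul_right.norm
    have hbd := integrable_inv_one_add_sq.mul_prod hd2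
    refine hbd.mono' ?_ (Eventually.of_forall fun p => ?_)
    · refine (Continuous.aestronglyMeasurable ?_)
      have hp : Continuous fun p : ℝ × ℝ => Poincare.pt p.1 1 := hpt.comp continuous_fst
      refine (hgc.comp continuous_snd).mul ((hp.zpow₀ _ fun p => .inl (hpt0 p.1)).mul
        (Complex.continuous_exp.comp ((continuous_const.mul
          ((continuous_const.div hp fun p => hpt0 p.1).add
            ((Complex.continuous_ofReal.comp continuous_snd).mul hp))).neg)))
    · obtain ⟨u, x⟩ := p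
      show ‖g x * PeterssonTrace.realProfile k A x 1 u‖ ≤ (1 + u ^ 2)⁻¹ * ‖damped g x‖
      rw [damped, norm_mul, norm_mul, norm_real, Real.norm_of_nonneg (Real.exp_pos _).le,
        mul_left_comm]
      refine mul_le_mul_of_nonneg_left ?_ (norm_nonneg _)
      rw [PeterssonTrace.realProfile, norm_mul, norm_zpow, zpow_neg, zpow_natCast,
        Complex.norm_def, Poincare.normSq_pt, one_pow]
      refine mul_le_mul ?_ ?_ (norm_nonneg _) (by positivity)
      · refine inv_anti₀ (by positivity) ?_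
        calc 1 + u ^ 2 = √(u ^ 2 + 1) ^ 2 := by rw [Real.sq_sqrt (by positivity)]; ring
          _ ≤ √(u ^ 2 + 1) ^ k :=
            pow_le_pow_right₀ (Real.one_le_sqrt.2 (by nlinarith [sq_nonneg u])) (by omega)
      · rw [Complex.norm_exp, Real.exp_le_exp]
        have hq := div_pt A u
        rw [hq]
        simp only [neg_re, mul_re, mul_im, ofReal_re, ofReal_im, re_ofNat, im_ofNat, sub_re, sub_im,
          add_re, add_im, Poincare.pt, Complex.I_re, Complex.I_im]
        have : 0 ≤ A / (u ^ 2 + 1) := by positivity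
        nlinarith [Real.pi_pos]
  rw [show (∫ u, t m u) = b m * ∫ x, ∫ u, φ u x by
    simp only [e1, integral_const_mul, integral_integral_swap hφint]]
  have e2 : ∀ x : ℝ, (∫ u, φ u x) = (Set.Ioi (0 : ℝ)).indicator (fun x => 2 * π * I ^ k *
      (g x * (((√x / √A) ^ (k - 1) *
        PeterssonTrace.besselJ (k - 1) (4 * π * √(A * x)) : ℝ) : ℂ))) x := by
    intro x
    simp only [hφ, integral_const_mul]
    rcases le_or_gt x 0 with hx | hx
    · simp [hpos x hx, hx.not_gt]
    · rw [Set.indicator_of_mem (show x ∈ Set.Ioi (0 : ℝ) from hx),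
        PeterssonTrace.integral_realProfile (by omega) hA0 hx one_pos, he.neg_pow]
      ring
  simp only [e2]
  rw [integral_indicator measurableSet_Ioi, integral_const_mul]
  simp only [hb]
  have hI : ∀ x : ℝ, (((√x / √A) ^ (k - 1) *
      PeterssonTrace.besselJ (k - 1) (4 * π * √(A * x)) : ℝ) : ℂ) =
      ((c : ℂ) ^ (k - 1)) * (((√x / √m) ^ (k - 1) *
        PeterssonTrace.besselJ (k - 1) (4 * π * √((m : ℝ) * x) / c) : ℝ) : ℂ) := fun x => by
    rw [hA, div_mul_eq_mul_div, Real.sqrt_div' _ (by positivity),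
      Real.sqrt_div' _ (by positivity), Real.sqrt_sq hcR.le, div_div_eq_mul_div, mul_div_right_comm,
      mul_pow, ← mul_div_assoc]
    push_cast
    ring
  simp only [hI, mul_left_comm (g _), integral_const_mul]
  rw [show (c : ℂ) ^ k = (c : ℂ) ^ (k - 1) * c by
    rw [← pow_succ, Nat.sub_add_cancel (by omega : 1 ≤ k)]]
  field_simp

end FA.VoronoiSummation

end
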